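import Fermat.Agent.S28.FN7f
import Fermat.Agent.S28.Factor
import Fermat.Agent.S28.Scale
import Fermat.Agent.S36.Reg.Interface

/-!
# S36 / Phi : the shape of the modular polynomial `Φ_r` (architect helper78)

`Φ = Φ_r(X, Y) ∈ ℤ[Y][X]` (outer variable `X`), `S28.IsModPoly r Φ` : monic of degree `r + 1` in `X`,
`Φ(j(q^r), j(q)) = 0 = Φ(j(q), j(q^r))`; existence: `S28.FN7.hasModPoly_int`.
Over an algebraically closed field of characteristic zero (`S28.Factor.factor_base`)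
`Φ(X, j(q^r)) = (X - j(q^(r²))) ∏_{ζ^r = 1} (X - j(ζ q))`.
Reading off the orders in `q` of the coefficients gives the shape needed by `Reg.PhiShape`:
`Φ = X^(r+1) + Y^(r+1) - X^r Y^r + (terms X^a Y^b with a, b ≤ r, (a, b) ≠ (r, r))`.
-/

set_option autoImplicit false

noncomputable section

namespace Fermat.Agent.S36.Phi

open Polynomial Fermat.Agent

/-- `x` has order at least `n`. -/
def OrdGE {k : Type*} [Zero k] (x : HahnSeries ℤ k) (n : ℤ) : Prop := ∀ m < n, x.coeff m = 0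

/-- **PHI-ORD**. order and leading coefficient of a polynomial in a series with a pole. -/
def Stmt_PhiOrd : Prop :=
  ∀ (k : Type) [Field k] (n : ℕ) (y : LaurentSeries k) (P : k[X]), 0 < n → y.order = -(n : ℤ) →
    y.leadingCoeff = 1 → P ≠ 0 →
    (S28.evY y P).order = -((n * P.natDegree : ℕ) : ℤ) ∧
      (S28.evY y P).leadingCoeff = P.leadingCoeff

/-- **PHI-SYM**. coefficients of `∏ (X - y_s)`, all `y_s` with at most a simple pole. -/
def Stmt_PhiSym : Prop :=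
  ∀ (k : Type) [Field k] (ι : Type) (S : Finset ι) (y : ι → LaurentSeries k),
    (∀ s ∈ S, OrdGE (y s) (-1)) →
    (∀ i ≤ S.card, OrdGE ((∏ s ∈ S, (X - C (y s))).coeff i) (-((S.card - i : ℕ) : ℤ))) ∧
    ((∏ s ∈ S, (X - C (y s))).coeff 0).coeff (-(S.card : ℤ)) = ∏ s ∈ S, (-(y s).coeff (-1))

/-- **PHI-DEG**. the degrees in `Y`. -/
def Stmt_PhiDeg : Prop :=
  ∀ (r : ℕ) (Φ : ℤ[X][X]), r.Prime → S28.IsModPoly r Φ →
    (∀ i, 1 ≤ i → (Φ.coeff i).natDegree ≤ r) ∧ (Φ.coeff 0).natDegree = r + 1 ∧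
      (Φ.coeff 0).coeff (r + 1) = 1 ∧ (Φ.coeff r).coeff r = -1

/-- **PHI**. the output: `c a b` = coefficient of `X^(r+1-a) Y^(r+1-b)`. -/
def Stmt_Phi : Prop :=
  ∀ r : ℕ, r.Prime → ∃ c : ℕ → ℕ → ℤ, Reg.PhiShape r c ∧
    ∀ (K : Type) [Field K] (d : ℕ), 0 < d →
      (∑ a ∈ Finset.range (r + 2), ∑ b ∈ Finset.range (r + 2),
        ((c a b : ℤ) : LaurentSeries K) * (S28.jd K (r * d))⁻¹ ^ a * (S28.jd K d)⁻¹ ^ b = 0) ∧
      (∑ a ∈ Finset.range (r + 2), ∑ b ∈ Finset.range (r + 2),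
        ((c a b : ℤ) : LaurentSeries K) * (S28.jd K d)⁻¹ ^ a * (S28.jd K (r * d))⁻¹ ^ b = 0)

end Fermat.Agent.S36.Phi

end
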