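import Fermat.Agent.S36.Phi.Interface

/-!
# S36 / Phi : PHI-ORD, order and leading coefficient of `P(y)`, `y` a Laurent series with a pole
-/

set_option autoImplicit false

noncomputable section

namespace Fermat.Agent.S36.Phi

open Polynomial Fermat.Agent

theorem Ord_order_eq {k : Type*} [Zero k] (x : HahnSeries ℤ k) (m₀ : ℤ) (h1 : x.coeff m₀ ≠ 0)
    (h2 : ∀ m < m₀, x.coeff m = 0) : x.order = m₀ ∧ x.leadingCoeff = x.coeff m₀ := by
  have hx : x ≠ 0 := by
    rintro rfl
    exact h1 rfl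
  have h3 : x.order = m₀ := by
    apply le_antisymm (HahnSeries.order_le_of_coeff_ne_zero h1)
    by_contra hlt
    exact hx (HahnSeries.coeff_order_eq_zero.1 (h2 _ (not_le.1 hlt)))
  exact ⟨h3, by rw [HahnSeries.leadingCoeff_eq, h3]⟩

theorem Ord_leadingCoeff_pow {k : Type} [Field k] (y : LaurentSeries k) (h : y.leadingCoeff = 1)
    (i : ℕ) : (y ^ i).leadingCoeff = 1 := by
  induction i with
  | zero => rw [pow_zero, HahnSeries.leadingCoeff_one]
  | succ i ih => rw [pow_succ, HahnSeries.leadingCoeff_mul, ih, h, one_mul]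

theorem phiOrd : Stmt_PhiOrd := by
  intro k _ n y P hn hy hy1 hP
  have hord : ∀ i : ℕ, (y ^ i).order = -((n * i : ℕ) : ℤ) := by
    intro i
    rw [HahnSeries.order_pow, hy]
    push_cast
    simp only [nsmul_eq_mul]
    ring
  have hcoeff : ∀ m : ℤ, (S28.evY y P).coeff m
      = ∑ i ∈ Finset.range (P.natDegree + 1), P.coeff i * (y ^ i).coeff m := by
    intro m
    have h1 : S28.evY y P
        = ∑ i ∈ Finset.range (P.natDegree + 1), HahnSeries.C (P.coeff i) * y ^ i := by
      rw [S28.evY, Polynomial.coe_eval₂RingHom, Polynomial.eval₂_eq_sum_range]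
    rw [h1, HahnSeries.coeff_sum]
    refine Finset.sum_congr rfl fun i _ => ?_
    rw [HahnSeries.C_mul_eq_smul, HahnSeries.coeff_smul, smul_eq_mul]
  have hlow : ∀ (i : ℕ) (m : ℤ), m < -((n * i : ℕ) : ℤ) → (y ^ i).coeff m = 0 := by
    intro i m hm
    apply HahnSeries.coeff_eq_zero_of_lt_order
    rw [hord]
    exact hm
  have hmono : ∀ i ≤ P.natDegree, -((n * P.natDegree : ℕ) : ℤ) ≤ -((n * i : ℕ) : ℤ) := by
    intro i hi
    have : n * i ≤ n * P.natDegree := Nat.mul_le_mul_left n hi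
    omega
  have hsmono : ∀ i < P.natDegree, -((n * P.natDegree : ℕ) : ℤ) < -((n * i : ℕ) : ℤ) := by
    intro i hi
    have : n * i < n * P.natDegree := Nat.mul_lt_mul_of_pos_left hi hn
    omega
  have htop : (S28.evY y P).coeff (-((n * P.natDegree : ℕ) : ℤ)) = P.leadingCoeff := by
    rw [hcoeff, Finset.sum_range_succ, Finset.sum_eq_zero, zero_add]
    · have h2 : (y ^ P.natDegree).coeff (-((n * P.natDegree : ℕ) : ℤ)) = 1 := by
        rw [← hord, ← HahnSeries.leadingCoeff_eq, Ord_leadingCoeff_pow y hy1]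
      rw [h2, mul_one, Polynomial.leadingCoeff]
    · intro i hi
      rw [hlow i _ (hsmono i (Finset.mem_range.1 hi)), mul_zero]
  have hbelow : ∀ m < -((n * P.natDegree : ℕ) : ℤ), (S28.evY y P).coeff m = 0 := by
    intro m hm
    rw [hcoeff]
    refine Finset.sum_eq_zero fun i hi => ?_
    rw [hlow i m (lt_of_lt_of_le hm (hmono i (Nat.lt_succ_iff.1 (Finset.mem_range.1 hi)))),
      mul_zero]
  have hne : (S28.evY y P).coeff (-((n * P.natDegree : ℕ) : ℤ)) ≠ 0 := by
    rw [htop]
    exact Polynomial.leadingCoeff_ne_zero.2 hP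
  obtain ⟨h1, h2⟩ := Ord_order_eq _ _ hne hbelow
  exact ⟨h1, h2.trans htop⟩

end Fermat.Agent.S36.Phi

end
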