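import Fermat.Agent.S36.Phi.Interface

/-!
# S36 / Phi / SYM : orders of the coefficients of `∏ (X - y_s)`
-/

set_option autoImplicit false

noncomputable section

namespace Fermat.Agent.S36.Phi

open Polynomial Fermat.Agent

section API

variable {k : Type*} [Field k]

theorem Sym_zero (n : ℤ) : OrdGE (0 : LaurentSeries k) n := fun _ _ => rfl

theorem Sym_one : OrdGE (1 : LaurentSeries k) 0 := fun m hm => by
  rw [HahnSeries.coeff_one, if_neg hm.ne]

theorem Sym_mono {x : LaurentSeries k} {n n' : ℤ} (h : OrdGE x n) (hn : n' ≤ n) : OrdGE x n' :=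
  fun m hm => h m (lt_of_lt_of_le hm hn)

theorem Sym_add {x y : LaurentSeries k} {n : ℤ} (hx : OrdGE x n) (hy : OrdGE y n) :
    OrdGE (x + y) n := fun m hm => by
  rw [HahnSeries.coeff_add, hx m hm, hy m hm, add_zero]

theorem Sym_neg {x : LaurentSeries k} {n : ℤ} (hx : OrdGE x n) : OrdGE (-x) n := fun m hm => by
  rw [HahnSeries.coeff_neg, hx m hm, neg_zero]

theorem Sym_sub {x y : LaurentSeries k} {n : ℤ} (hx : OrdGE x n) (hy : OrdGE y n) :
    OrdGE (x - y) n := fun m hm => by
  rw [HahnSeries.coeff_sub, hx m hm, hy m hm, sub_zero]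

theorem Sym_mul {x y : LaurentSeries k} {a b : ℤ} (hx : OrdGE x a) (hy : OrdGE y b) :
    OrdGE (x * y) (a + b) := fun m hm => by
  rw [HahnSeries.coeff_mul]
  refine Finset.sum_eq_zero fun ij hij => ?_
  have h1 : ij.1 + ij.2 = m := (Finset.mem_antidiagonal.1 hij).2.2
  by_cases h : ij.1 < a
  · rw [hx _ h, zero_mul]
  · rw [hy _ (by omega), mul_zero]

theorem Sym_coeff_mul_top {x y : LaurentSeries k} {a b : ℤ} (hx : OrdGE x a) (hy : OrdGE y b) :
    (x * y).coeff (a + b) = x.coeff a * y.coeff b := by
  rw [HahnSeries.coeff_mul]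
  rw [Finset.sum_eq_single (a, b)]
  · intro ij hij hne
    have h1 : ij.1 + ij.2 = a + b := (Finset.mem_antidiagonal.1 hij).2.2
    by_cases h : ij.1 < a
    · rw [hx _ h, zero_mul]
    · by_cases h' : ij.2 < b
      · rw [hy _ h', mul_zero]
      · exfalso
        apply hne
        ext
        · show ij.1 = a
          omega
        · show ij.2 = b
          omega
  · intro hn
    by_contra hne
    apply hn
    rw [Finset.mem_antidiagonal]
    refine ⟨?_, ?_, rfl⟩
    · exact fun h0 => hne (by show x.coeff a * y.coeff b = 0; rw [h0, zero_mul])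
    · exact fun h0 => hne (by show x.coeff a * y.coeff b = 0; rw [h0, mul_zero])

end API

/-- the strengthened induction statement (integer bounds, all `i`). -/
theorem Sym_main {k : Type} [Field k] {ι : Type} (S : Finset ι) (y : ι → LaurentSeries k)
    (h : ∀ s ∈ S, OrdGE (y s) (-1)) :
    (∀ i : ℕ, OrdGE ((∏ s ∈ S, (X - C (y s))).coeff i) ((i : ℤ) - S.card)) ∧
    ((∏ s ∈ S, (X - C (y s))).coeff 0).coeff (-(S.card : ℤ)) = ∏ s ∈ S, (-(y s).coeff (-1)) := by
  classical
  induction S using Finset.induction_on with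
  | empty =>
    refine ⟨fun i => ?_, ?_⟩
    · rw [Finset.prod_empty, Polynomial.coeff_one]
      split_ifs with hi
      · subst hi
        simpa using Sym_one (k := k)
      · exact Sym_zero _
    · simp
  | insert a S ha ih =>
    obtain ⟨ih1, ih2⟩ := ih fun s hs => h s (Finset.mem_insert_of_mem hs)
    have hya := h a (Finset.mem_insert_self a S)
    rw [Finset.prod_insert ha, Finset.card_insert_of_notMem ha, Finset.prod_insert ha]
    set Q := ∏ s ∈ S, (X - C (y s)) with hQ
    refine ⟨fun i => ?_, ?_⟩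
    · cases i with
      | zero =>
        rw [Polynomial.mul_coeff_zero]
        have h1 : (X - C (y a)).coeff 0 = - y a := by simp
        rw [h1]
        have h2 := Sym_mul (Sym_neg hya) (ih1 0)
        refine Sym_mono h2 ?_
        push_cast
        omega
      | succ j =>
        rw [Polynomial.coeff_X_sub_C_mul]
        refine Sym_sub (Sym_mono (ih1 j) ?_) (Sym_mono (Sym_mul hya (ih1 (j + 1))) ?_)
        · push_cast; omega
        · push_cast; omega
    · rw [Polynomial.mul_coeff_zero]
      have h1 : (X - C (y a)).coeff 0 = - y a := by simp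
      have h3 : OrdGE (Q.coeff 0) (-(S.card : ℤ)) := by
        have := ih1 0
        simpa using this
      have e : (-((S.card + 1 : ℕ) : ℤ)) = -1 + -(S.card : ℤ) := by push_cast; ring
      rw [h1, e, Sym_coeff_mul_top (Sym_neg hya) h3, ih2, HahnSeries.coeff_neg]

/-- **PHI-SYM** -/
theorem phiSym : Stmt_PhiSym := by
  intro k _ ι S y h
  obtain ⟨h1, h2⟩ := Sym_main S y h
  refine ⟨fun i hi => ?_, h2⟩
  have e : (-((S.card - i : ℕ) : ℤ)) = (i : ℤ) - S.card := by
    rw [Nat.cast_sub hi]; ring
  rw [e]
  exact h1 i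

end Fermat.Agent.S36.Phi

end
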