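import Fermat.Agent.S36.Phi.Interface
import Fermat.Agent.S36.Phi.Ord
import Fermat.Agent.S36.Phi.Sym
import Fermat.Agent.S28.BaseChange

/-!
# S36 / Phi : PHI-DEG, the degrees in `Y` of the coefficients of `Φ_r`
-/

set_option autoImplicit false

noncomputable section

namespace Fermat.Agent.S36.Phi

open Polynomial Fermat.Agent ModularCurve

section Field

variable {k : Type} [Field k]

/-- `j(q^d)` has a pole of order `d` with leading coefficient `1`. -/
theorem Deg_jd {d : ℕ} (hd : 0 < d) :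
    OrdGE (S28.jd k d) (-(d : ℤ)) ∧ (S28.jd k d).coeff (-(d : ℤ)) = 1 := by
  constructor
  · intro m hm
    by_cases hdm : (d : ℤ) ∣ m
    · obtain ⟨n, rfl⟩ := hdm
      rw [S28.jd, S28.Factor.Vq_coeff_mul hd]
      apply coeff_jqModC_of_lt
      have hd' : (0 : ℤ) < d := by exact_mod_cast hd
      nlinarith
    · rw [S28.jd, S28.Factor.Vq_coeff_of_not_dvd hd _ hdm]
  · have := S28.Factor.Vq_coeff_mul hd (jqModC k) (-1)
    rw [mul_neg_one, coeff_jqModC_neg_one] at this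
    exact this

theorem Deg_jd_order {d : ℕ} (hd : 0 < d) :
    (S28.jd k d).order = -(d : ℤ) ∧ (S28.jd k d).leadingCoeff = 1 := by
  obtain ⟨h1, h2⟩ := Deg_jd (k := k) hd
  obtain ⟨h3, h4⟩ := Ord_order_eq (S28.jd k d) (-(d : ℤ)) (by rw [h2]; exact one_ne_zero) h1
  exact ⟨h3, by rw [h4, h2]⟩

theorem Deg_scale {ζ : k} (hζ : ζ ≠ 0) :
    OrdGE (S28.scale ζ (jqModC k)) (-1) ∧ (S28.scale ζ (jqModC k)).coeff (-1) = ζ⁻¹ := by
  constructor
  · intro m hm
    rw [S28.scale_coeff hζ, coeff_jqModC_of_lt k hm, mul_zero]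
  · rw [S28.scale_coeff hζ, coeff_jqModC_neg_one, mul_one, zpow_neg_one]

/-- upper bound for the degree. -/
theorem Deg_le (h1 : Stmt_PhiOrd) {n : ℕ} (hn : 0 < n) {y : LaurentSeries k}
    (hy : y.order = -(n : ℤ)) (hy1 : y.leadingCoeff = 1) (P : k[X]) (B : ℕ)
    (hO : OrdGE (S28.evY y P) (-(B : ℤ))) : n * P.natDegree ≤ B := by
  by_cases hP : P = 0
  · rw [hP, natDegree_zero, mul_zero]; exact Nat.zero_le _
  obtain ⟨ho, hl⟩ := h1 k n y P hn hy hy1 hP
  by_contra hlt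
  have h2 : (S28.evY y P).coeff (S28.evY y P).order = 0 := by
    apply hO
    rw [ho]
    have : B < n * P.natDegree := not_le.1 hlt
    omega
  have h3 : S28.evY y P = 0 := HahnSeries.coeff_order_eq_zero.1 h2
  rw [h3, HahnSeries.leadingCoeff_zero] at hl
  exact hP (leadingCoeff_eq_zero.1 hl.symm)

/-- exact degree and leading coefficient. -/
theorem Deg_key (h1 : Stmt_PhiOrd) {n : ℕ} (hn : 0 < n) {y : LaurentSeries k}
    (hy : y.order = -(n : ℤ)) (hy1 : y.leadingCoeff = 1) (P : k[X]) (d : ℕ) (c : k) (hc : c ≠ 0)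
    (hO : OrdGE (S28.evY y P) (-((n * d : ℕ) : ℤ)))
    (hcoef : (S28.evY y P).coeff (-((n * d : ℕ) : ℤ)) = c) : P.natDegree = d ∧ P.coeff d = c := by
  have hP : P ≠ 0 := by
    rintro rfl
    rw [map_zero, HahnSeries.coeff_zero] at hcoef
    exact hc hcoef.symm
  obtain ⟨ho, hl⟩ := h1 k n y P hn hy hy1 hP
  obtain ⟨h3, h4⟩ := Ord_order_eq (S28.evY y P) _ (by rw [hcoef]; exact hc) hO
  have h5 : P.natDegree = d := by
    rw [ho] at h3
    have : n * P.natDegree = n * d := by omega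
    exact Nat.eq_of_mul_eq_mul_left hn this
  refine ⟨h5, ?_⟩
  rw [← h5, coeff_natDegree, ← hl, h4, hcoef]

/-- `∏_{ζ^r = 1} (-ζ⁻¹) = -1`. -/
theorem Deg_prod [IsAlgClosed k] {r : ℕ} (hr : 0 < r) (hrk : (r : k) ≠ 0) :
    ∏ ζ ∈ nthRootsFinset r (1 : k), (-ζ⁻¹) = -1 := by
  have : NeZero (r : k) := ⟨hrk⟩
  obtain ⟨ζ, hζ⟩ := HasEnoughRootsOfUnity.exists_primitiveRoot k r
  have h := congrArg (eval 0) (X_pow_sub_one_eq_prod hr hζ)
  rw [eval_sub, eval_pow, eval_X, eval_one, zero_pow hr.ne', zero_sub, eval_prod] at h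
  simp only [eval_sub, eval_X, eval_C, zero_sub] at h
  have h2 : ∏ ζ ∈ nthRootsFinset r (1 : k), (-ζ⁻¹) = (∏ ζ ∈ nthRootsFinset r (1 : k), (-ζ))⁻¹ := by
    rw [← Finset.prod_inv_distrib]
    exact Finset.prod_congr rfl fun ζ _ => neg_inv
  rw [h2, ← h, inv_neg, inv_one]

theorem Deg_field (h1 : Stmt_PhiOrd) (h2 : Stmt_PhiSym) [IsAlgClosed k] {r : ℕ} (hr : r.Prime)
    (hrk : (r : k) ≠ 0) {Φ : k[X][X]} (hΦ : S28.IsModPoly r Φ) :
    (∀ i, 1 ≤ i → (Φ.coeff i).natDegree ≤ r) ∧ (Φ.coeff 0).natDegree = r + 1 ∧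
      (Φ.coeff 0).coeff (r + 1) = 1 ∧ (Φ.coeff r).coeff r = -1 := by
  classical
  have hr0 : 0 < r := hr.pos
  have hfac := S28.Factor.factor_base hr hrk hΦ S28.scale (fun c hc => S28.isScale_scale hc)
  obtain ⟨Q, hQ⟩ : ∃ Q : (LaurentSeries k)[X], Q = ∏ ζ ∈ nthRootsFinset r (1 : k),
      (X - C (S28.scale ζ (jqModC k))) := ⟨_, rfl⟩
  rw [← hQ] at hfac
  have hcard : (nthRootsFinset r (1 : k)).card = r := S28.Factor.card_nthRootsFinset_one hrk
  have hζ0 : ∀ ζ ∈ nthRootsFinset r (1 : k), ζ ≠ 0 := by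
    intro ζ hζ
    have h := (mem_nthRootsFinset hr0 (1 : k)).mp hζ
    rintro rfl
    rw [zero_pow hr0.ne'] at h
    exact zero_ne_one h
  obtain ⟨hS1, hS2⟩ := h2 k k (nthRootsFinset r (1 : k)) (fun ζ => S28.scale ζ (jqModC k))
    (fun ζ hζ => (Deg_scale (hζ0 ζ hζ)).1)
  rw [← hQ, hcard] at hS1 hS2
  have hS2' : (Q.coeff 0).coeff (-(r : ℤ)) = -1 := by
    rw [hS2, ← Deg_prod hr0 hrk]
    exact Finset.prod_congr rfl fun ζ hζ => by rw [(Deg_scale (hζ0 ζ hζ)).2]
  obtain ⟨hy, hy1⟩ := Deg_jd_order (k := k) hr0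
  have hr2 : 0 < r ^ 2 := pow_pos hr0 2
  obtain ⟨hρ1, hρ2⟩ := Deg_jd (k := k) hr2
  have hc0 : S28.evY (S28.jd k r) (Φ.coeff 0) = -(S28.jd k (r ^ 2) * Q.coeff 0) := by
    rw [← coeff_map, hfac, mul_coeff_zero, coeff_sub, coeff_X_zero, coeff_C_zero]
    ring
  have hcs : ∀ i, S28.evY (S28.jd k r) (Φ.coeff (i + 1))
      = Q.coeff i - S28.jd k (r ^ 2) * Q.coeff (i + 1) := by
    intro i
    rw [← coeff_map, hfac, sub_mul, coeff_sub, coeff_X_mul, coeff_C_mul]
  have hQmonic : Q.Monic := by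
    rw [hQ]; exact monic_prod_of_monic _ _ fun ζ _ => monic_X_sub_C _
  have hQdeg : Q.natDegree = r := by
    rw [hQ, natDegree_prod_of_monic _ _ fun ζ _ => monic_X_sub_C _]
    simp [hcard]
  have hQr : Q.coeff r = 1 := by rw [← hQdeg]; exact hQmonic.coeff_natDegree
  refine ⟨?_, ?_⟩
  · intro i hi
    rcases lt_trichotomy i (r + 1) with hlt | heq | hgt
    · obtain ⟨j, rfl⟩ : ∃ j, i = j + 1 := ⟨i - 1, by omega⟩
      have hO : OrdGE (S28.evY (S28.jd k r) (Φ.coeff (j + 1)))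
          (-((r ^ 2 + r - (j + 1) : ℕ) : ℤ)) := by
        rw [hcs]
        have e1 : ((r ^ 2 + r - (j + 1) : ℕ) : ℤ) = (r : ℤ) ^ 2 + r - (j + 1) := by
          have : j + 1 ≤ r ^ 2 + r := by omega
          push_cast [Nat.cast_sub this]
          ring
        have e2 : ((r - j : ℕ) : ℤ) = (r : ℤ) - j := by
          have : j ≤ r := by omega
          push_cast [Nat.cast_sub this]
          ring
        have e3 : ((r - (j + 1) : ℕ) : ℤ) = (r : ℤ) - (j + 1) := by
          have : j + 1 ≤ r := by omega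
          push_cast [Nat.cast_sub this]
          ring
        have hr2' : (1 : ℤ) ≤ (r : ℤ) ^ 2 := by exact_mod_cast hr2
        apply Sym_sub
        · exact Sym_mono (hS1 j (by omega)) (by rw [e1, e2]; omega)
        · refine Sym_mono (Sym_mul hρ1 (hS1 (j + 1) (by omega))) ?_
          rw [e1, e3]; push_cast; omega
      have h3 := Deg_le h1 hr0 hy hy1 _ _ hO
      have h4 : r * (Φ.coeff (j + 1)).natDegree < r * (r + 1) := by
        have : r ^ 2 + r - (j + 1) < r * (r + 1) := by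
          have : r * (r + 1) = r ^ 2 + r := by ring
          omega
        omega
      have := Nat.lt_of_mul_lt_mul_left h4
      omega
    · have : Φ.coeff i = 1 := by
        rw [heq, ← hΦ.2.1]; exact hΦ.1.coeff_natDegree
      rw [this, natDegree_one]; exact Nat.zero_le _
    · rw [coeff_eq_zero_of_natDegree_lt (by rw [hΦ.2.1]; exact hgt), natDegree_zero]
      exact Nat.zero_le _
  · have e0 : (-((r * (r + 1) : ℕ) : ℤ)) = -((r ^ 2 : ℕ) : ℤ) + -(r : ℤ) := by
      push_cast; ring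
    have hA := Deg_key h1 hr0 hy hy1 (Φ.coeff 0) (r + 1) 1 one_ne_zero
      (by
        rw [hc0, e0]
        have := hS1 0 (Nat.zero_le _)
        rw [Nat.sub_zero] at this
        exact Sym_neg (Sym_mul hρ1 this))
      (by
        have := hS1 0 (Nat.zero_le _)
        rw [Nat.sub_zero] at this
        rw [hc0, e0, HahnSeries.coeff_neg, Sym_coeff_mul_top hρ1 this, hρ2, hS2']
        ring)
    obtain ⟨j, hj⟩ : ∃ j, r = j + 1 := ⟨r - 1, by omega⟩
    have hQj : OrdGE (Q.coeff j) (-1) := by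
      have := hS1 j (by omega)
      have e : r - j = 1 := by omega
      rwa [e] at this
    have hcr : S28.evY (S28.jd k r) (Φ.coeff r) = Q.coeff j - S28.jd k (r ^ 2) := by
      have := hcs j
      rw [← hj, hQr, mul_one] at this
      exact this
    have e4 : ((r * r : ℕ) : ℤ) = ((r ^ 2 : ℕ) : ℤ) := by rw [pow_two]
    have hlt : -((r ^ 2 : ℕ) : ℤ) < -1 := by
      have : 2 ≤ r := hr.two_le
      have : 4 ≤ r ^ 2 := by nlinarith
      omega
    have hB := Deg_key h1 hr0 hy hy1 (Φ.coeff r) r (-1) (neg_ne_zero.2 one_ne_zero)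
      (by
        rw [hcr, e4]
        exact Sym_sub (Sym_mono hQj hlt.le) hρ1)
      (by
        rw [hcr, e4, HahnSeries.coeff_sub, hQj _ hlt, hρ2, zero_sub])
    exact ⟨hA.1, hA.2, hB.2⟩

end Field

theorem phiDeg (h1 : Stmt_PhiOrd) (h2 : Stmt_PhiSym) : Stmt_PhiDeg := by
  intro r Φ hr hΦ
  have hinj : Function.Injective (Int.castRingHom (AlgebraicClosure ℚ)) := Int.cast_injective
  have hΦk := S28.BC.IsModPoly.map (Int.castRingHom (AlgebraicClosure ℚ)) hΦ
  have hrk : (r : AlgebraicClosure ℚ) ≠ 0 := by exact_mod_cast hr.ne_zero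
  obtain ⟨hA, hB, hC, hD⟩ := Deg_field h1 h2 hr hrk hΦk
  have hco : ∀ i, (Φ.map (mapRingHom (Int.castRingHom (AlgebraicClosure ℚ)))).coeff i
      = (Φ.coeff i).map (Int.castRingHom (AlgebraicClosure ℚ)) := by
    intro i
    rw [coeff_map, coe_mapRingHom]
  simp only [hco, natDegree_map_eq_of_injective hinj, coeff_map] at hA hB hC hD
  refine ⟨hA, hB, ?_, ?_⟩
  · apply hinj
    rw [hC, map_one]
  · apply hinj
    rw [hD, map_neg, map_one]

end Fermat.Agent.S36.Phi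

end
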