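import Fermat.Agent.S36.Phi.Interface
import Fermat.Agent.S28.Toolkit
import Fermat.Agent.S28.NewPrime
import Fermat.Agent.S28.BaseChange

/-!
# S36 / Phi : PHI-OUT, `Stmt_Phi` from `Stmt_PhiDeg` (helper93)
-/

set_option autoImplicit false

noncomputable section

namespace Fermat.Agent.S36.Phi

open Polynomial Fermat.Agent

/-- `ev2` of the base change of an integral polynomial as a double sum. -/
theorem Out_ev2_eq_sum (K : Type) [Field K] (Φ : ℤ[X][X]) (n : ℕ) (h1 : Φ.natDegree < n)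
    (h2 : ∀ i, (Φ.coeff i).natDegree < n) (x y : LaurentSeries K) :
    S28.ev2 (Φ.map (Polynomial.mapRingHom (Int.castRingHom K))) x y =
      ∑ i ∈ Finset.range n, ∑ j ∈ Finset.range n,
        (((Φ.coeff i).coeff j : ℤ) : LaurentSeries K) * y ^ j * x ^ i := by
  have hcomp : (S28.evY y).comp (Polynomial.mapRingHom (Int.castRingHom K)) =
      Polynomial.eval₂RingHom (Int.castRingHom (LaurentSeries K)) y := by
    apply Polynomial.ringHom_ext
    · intro a
      simp [S28.evY]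
    · simp [S28.evY]
  rw [S28.ev2, Polynomial.eval₂_map, hcomp, Polynomial.eval₂_eq_sum_range' _ h1]
  refine Finset.sum_congr rfl fun i _ => ?_
  rw [Polynomial.coe_eval₂RingHom, Polynomial.eval₂_eq_sum_range' _ (h2 i), Finset.sum_mul]
  rfl

/-- the reciprocal double sum. -/
theorem Out_recip {L : Type} [Field L] (n : ℕ) (φ : ℕ → ℕ → L) (x y : L) (hx : x ≠ 0)
    (hy : y ≠ 0) :
    ∑ a ∈ Finset.range (n + 1), ∑ b ∈ Finset.range (n + 1), φ (n - a) (n - b) * x⁻¹ ^ a * y⁻¹ ^ b =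
      x⁻¹ ^ n * y⁻¹ ^ n *
        ∑ i ∈ Finset.range (n + 1), ∑ j ∈ Finset.range (n + 1), φ i j * y ^ j * x ^ i := by
  rw [← Finset.sum_range_reflect, Finset.mul_sum]
  refine Finset.sum_congr rfl fun i hi => ?_
  rw [← Finset.sum_range_reflect, Finset.mul_sum]
  refine Finset.sum_congr rfl fun j hj => ?_
  have hi' : i ≤ n := by have := Finset.mem_range.1 hi; omega
  have hj' : j ≤ n := by have := Finset.mem_range.1 hj; omega
  have e1 : n + 1 - 1 - i = n - i := by omega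
  have e2 : n + 1 - 1 - j = n - j := by omega
  have e3 : n - (n - i) = i := by omega
  have e4 : n - (n - j) = j := by omega
  rw [e1, e2, e3, e4]
  have h1 : x⁻¹ ^ (n - i) = x⁻¹ ^ n * x ^ i := by
    have : x⁻¹ ^ n = x⁻¹ ^ (n - i) * x⁻¹ ^ i := by rw [← pow_add]; congr 1; omega
    rw [this, mul_assoc, ← mul_pow, inv_mul_cancel₀ hx, one_pow, mul_one]
  have h2 : y⁻¹ ^ (n - j) = y⁻¹ ^ n * y ^ j := by
    have : y⁻¹ ^ n = y⁻¹ ^ (n - j) * y⁻¹ ^ j := by rw [← pow_add]; congr 1; omega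
    rw [this, mul_assoc, ← mul_pow, inv_mul_cancel₀ hy, one_pow, mul_one]
  rw [h1, h2]
  ring

theorem phi (h : Stmt_PhiDeg) : Stmt_Phi := by
  intro r hr
  obtain ⟨Φ, hΦ⟩ := S28.FN7.hasModPoly_int hr
  obtain ⟨hd1, hd0, hc0, hcr⟩ := h r Φ hr hΦ
  have hmon := hΦ.1
  have hdeg := hΦ.2.1
  have htop : Φ.coeff (r + 1) = 1 := by
    have := hmon.coeff_natDegree
    rwa [hdeg] at this
  refine ⟨fun a b => (Φ.coeff (r + 1 - a)).coeff (r + 1 - b), ⟨?_, ?_, ?_, ?_, ?_⟩, ?_⟩
  · intro b hb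
    show (Φ.coeff (r + 1 - 0)).coeff (r + 1 - b) = 0
    rw [Nat.sub_zero, htop, Polynomial.coeff_one, if_neg (by omega)]
  · show (Φ.coeff (r + 1 - 0)).coeff (r + 1 - (r + 1)) = 1
    rw [Nat.sub_zero, htop, Nat.sub_self, Polynomial.coeff_one_zero]
  · intro a ha
    show (Φ.coeff (r + 1 - a)).coeff (r + 1 - 0) = 0
    exact Polynomial.coeff_eq_zero_of_natDegree_lt
      (lt_of_le_of_lt (hd1 _ (by omega)) (by omega))
  · show (Φ.coeff (r + 1 - (r + 1))).coeff (r + 1 - 0) = 1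
    rw [Nat.sub_self, Nat.sub_zero, hc0]
  · show (Φ.coeff (r + 1 - 1)).coeff (r + 1 - 1) = -1
    rw [Nat.add_sub_cancel, hcr]
  · intro K _ d hd
    have hΦK := S28.BC.IsModPoly.map (Int.castRingHom K) hΦ
    have hb1 : Φ.natDegree < r + 1 + 1 := by omega
    have hb2 : ∀ i, (Φ.coeff i).natDegree < r + 1 + 1 := by
      intro i
      rcases Nat.eq_zero_or_pos i with rfl | hi
      · omega
      · have := hd1 i hi; omega
    have hx : S28.jd K (r * d) ≠ 0 := S28.jd_ne_zero _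
    have hy : S28.jd K d ≠ 0 := S28.jd_ne_zero _
    have hrel1 : S28.ev2 (Φ.map (Polynomial.mapRingHom (Int.castRingHom K))) (S28.jd K (r * d))
        (S28.jd K d) = 0 := by
      have := S28.NewPrime.ev2_jd_mul hr.ne_zero hΦK d hd.ne'
      rwa [mul_comm] at this
    have hrel2 : S28.ev2 (Φ.map (Polynomial.mapRingHom (Int.castRingHom K))) (S28.jd K d)
        (S28.jd K (r * d)) = 0 := by
      have h3 := congrArg (S28.Vq K d) hΦK.2.2.2
      rw [map_zero, S28.NewPrime.map_ev2 _ (S28.NewPrime.Vq_C d),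
        S28.NewPrime.Vq_jd d r hd.ne' hr.ne_zero, mul_comm] at h3
      exact h3
    constructor
    · have := Out_recip (r + 1) (fun i j => (((Φ.coeff i).coeff j : ℤ) : LaurentSeries K))
        (S28.jd K (r * d)) (S28.jd K d) hx hy
      rw [← Out_ev2_eq_sum K Φ (r + 1 + 1) hb1 hb2, hrel1, mul_zero] at this
      exact this
    · have := Out_recip (r + 1) (fun i j => (((Φ.coeff i).coeff j : ℤ) : LaurentSeries K))
        (S28.jd K d) (S28.jd K (r * d)) hy hx
      rw [← Out_ev2_eq_sum K Φ (r + 1 + 1) hb1 hb2, hrel2, mul_zero] at this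
      exact this

end Fermat.Agent.S36.Phi

end
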